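import Mathlib
import Fermat.Agent.LT.T7.H671.LimSpec

/-!
# Row LT, tower T7, leaf T7.14.3e `ContentC` (helper139, registry #1956)

OFF-MAIN.  Proves `H671.ContentC K` for every number field `K`: the content idele of a nonzero
rational row twisted by `g ∈ GL₂(𝔸_K)`.

The idele is `a_v :=` the component of larger norm of `r = ξ g` at `v`.  It is nonzero at every
`v` since `ξ = r g⁻¹`, integral at almost every `v` since `r₀, r₁` are finite adeles, and of norm
`≥ 1` at almost every `v` since `ξ_j = r₀ (g⁻¹)₀ⱼ + r₁ (g⁻¹)₁ⱼ` with `(g⁻¹)ᵢⱼ` integral and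
`‖ξ_j‖_v = 1` at almost every `v` (for a `j` with `ξ_j ≠ 0`).
-/

set_option autoImplicit false

open AutomorphicForm IsDedekindDomain NumberField Filter Topology

noncomputable section

namespace Fermat.Agent.LT.T7.H139

open Fermat.Agent.LT.H556 Fermat.Agent.LT.H556.A0 Fermat.Agent.LT.T7 Fermat.Agent.LT.T7.Rigid

variable {K : Type} [Field K] [NumberField K]

/-- The `v`-component of the finite part of an adele. -/
def fcAt139 (v : HeightOneSpectrum (𝓞 K)) (x : Adl K) : v.adicCompletion K := x.2 v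

theorem fcAt139_add (v : HeightOneSpectrum (𝓞 K)) (x y : Adl K) :
    fcAt139 v (x + y) = fcAt139 v x + fcAt139 v y := rfl

theorem fcAt139_mul (v : HeightOneSpectrum (𝓞 K)) (x y : Adl K) :
    fcAt139 v (x * y) = fcAt139 v x * fcAt139 v y := rfl

theorem fcAt139_algebraMap (v : HeightOneSpectrum (𝓞 K)) (k : K) :
    fcAt139 v (algebraMap K (Adl K) k) = (k : v.adicCompletion K) := rfl

/-- `ξ = (ξ g) g⁻¹`, entrywise. -/
theorem rowOf_inv139 (g : G K) (ξ : Fin 2 → K) (j : Fin 2) :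
    algebraMap K (Adl K) (ξ j) =
      rowOf ξ g 0 * ((g⁻¹ : G K) : Matrix (Fin 2) (Fin 2) (Adl K)) 0 j
      + rowOf ξ g 1 * ((g⁻¹ : G K) : Matrix (Fin 2) (Fin 2) (Adl K)) 1 j := by
  have h : (g : Matrix (Fin 2) (Fin 2) (Adl K)) * ((g⁻¹ : G K) : Matrix (Fin 2) (Fin 2) (Adl K))
      = 1 := by
    rw [← Units.val_mul, mul_inv_cancel, Units.val_one]
  have h00 := congrFun (congrFun h 0) 0
  have h01 := congrFun (congrFun h 0) 1
  have h10 := congrFun (congrFun h 1) 0
  have h11 := congrFun (congrFun h 1) 1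
  simp only [Matrix.mul_apply, Fin.sum_univ_two, Matrix.one_apply_eq] at h00 h01 h10 h11
  rw [Matrix.one_apply_ne (by decide)] at h01 h10
  revert j
  refine Fin.forall_fin_two.mpr ⟨?_, ?_⟩
  · simp only [rowOf]
    linear_combination -(algebraMap K (Adl K) (ξ 0)) * h00 - (algebraMap K (Adl K) (ξ 1)) * h10
  · simp only [rowOf]
    linear_combination -(algebraMap K (Adl K) (ξ 0)) * h01 - (algebraMap K (Adl K) (ξ 1)) * h11

/-- The `v`-component of `ξ = (ξ g) g⁻¹`. -/
theorem rowOf_inv_at139 (g : G K) (ξ : Fin 2 → K) (j : Fin 2) (v : HeightOneSpectrum (𝓞 K)) :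
    ((ξ j : K) : v.adicCompletion K) =
      (rowOf ξ g 0).2 v * (((g⁻¹ : G K) : Matrix (Fin 2) (Fin 2) (Adl K)) 0 j).2 v
      + (rowOf ξ g 1).2 v * (((g⁻¹ : G K) : Matrix (Fin 2) (Fin 2) (Adl K)) 1 j).2 v := by
  exact congrArg (fcAt139 v) (rowOf_inv139 g ξ j)

/-- The coercion `K → K_v` is injective. -/
theorem coe_eq_zero139 (v : HeightOneSpectrum (𝓞 K)) (k : K)
    (h : ((k : K) : v.adicCompletion K) = 0) : k = 0 := by
  have hinj : Function.Injective (algebraMap K (v.adicCompletion K)) :=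
    (algebraMap K (v.adicCompletion K)).injective
  have h' : algebraMap K (v.adicCompletion K) k = algebraMap K (v.adicCompletion K) 0 :=
    h.trans (map_zero _).symm
  exact hinj h'

/-- The row `ξ g` is nonzero at every finite place. -/
theorem rowOf_ne_zero_at139 (g : G K) (ξ : Fin 2 → K) (hξ : ξ ≠ 0)
    (v : HeightOneSpectrum (𝓞 K)) :
    ¬ ((rowOf ξ g 0).2 v = 0 ∧ (rowOf ξ g 1).2 v = 0) := by
  rintro ⟨h0, h1⟩
  apply hξ
  funext j
  have h := rowOf_inv_at139 g ξ j v
  rw [h0, h1, zero_mul, zero_mul, add_zero] at h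
  exact coe_eq_zero139 v (ξ j) h

/-- Integrality in terms of the norm. -/
theorem mem_integers_iff_norm139 (v : HeightOneSpectrum (𝓞 K)) (x : v.adicCompletion K) :
    x ∈ v.adicCompletionIntegers K ↔ ‖x‖ ≤ 1 := by
  rw [HeightOneSpectrum.mem_adicCompletionIntegers]
  exact Valued.toNormedField.norm_le_one_iff.symm

/-- `Valued.v x = 1` in terms of the norm. -/
theorem valued_eq_one_iff_norm139 (v : HeightOneSpectrum (𝓞 K)) (x : v.adicCompletion K) :
    Valued.v x = 1 ↔ ‖x‖ = 1 := by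
  constructor
  · intro h
    exact le_antisymm (Valued.toNormedField.norm_le_one_iff.mpr h.le)
      (Valued.toNormedField.one_le_norm_iff.mpr h.ge)
  · intro h
    exact le_antisymm (Valued.toNormedField.norm_le_one_iff.mp h.le)
      (Valued.toNormedField.one_le_norm_iff.mp h.ge)

/-- The ultrametric inequality in `K_v`. -/
theorem norm_add_le_max139 (v : HeightOneSpectrum (𝓞 K)) (x y : v.adicCompletion K) :
    ‖x + y‖ ≤ max ‖x‖ ‖y‖ :=
  IsUltrametricDist.norm_add_le_max x y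

/-- A finite adele is integral at almost every place, norm form. -/
theorem eventually_norm_le_one139 (x : FiniteAdeleRing (𝓞 K) K) :
    ∀ᶠ v : HeightOneSpectrum (𝓞 K) in cofinite, ‖x v‖ ≤ 1 := by
  have h : ∀ᶠ v : HeightOneSpectrum (𝓞 K) in cofinite, x v ∈ v.adicCompletionIntegers K := x.2
  filter_upwards [h] with v hv
  exact (mem_integers_iff_norm139 v (x v)).mp hv

/-- A nonzero element of `K` has norm one at almost every place. -/
theorem eventually_norm_eq_one139 (k : K) (hk : k ≠ 0) :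
    ∀ᶠ v : HeightOneSpectrum (𝓞 K) in cofinite, ‖((k : K) : v.adicCompletion K)‖ = 1 := by
  have hu : IsUnit (algebraMap K (FiniteAdeleRing (𝓞 K) K) k) :=
    (IsUnit.mk0 k hk).map (algebraMap K (FiniteAdeleRing (𝓞 K) K))
  have h := (FiniteAdeleRing.isUnit_iff.mp hu).2
  filter_upwards [h] with v hv
  exact (valued_eq_one_iff_norm139 v _).mp hv

open scoped Classical in
/-- The component of larger norm of the row `ξ g` at `v`. -/
def contentFun139 (g : G K) (ξ : Fin 2 → K) (v : HeightOneSpectrum (𝓞 K)) :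
    v.adicCompletion K :=
  if ‖(rowOf ξ g 1).2 v‖ ≤ ‖(rowOf ξ g 0).2 v‖ then (rowOf ξ g 0).2 v else (rowOf ξ g 1).2 v

theorem norm_contentFun139 (g : G K) (ξ : Fin 2 → K) (v : HeightOneSpectrum (𝓞 K)) :
    ‖contentFun139 g ξ v‖ = max ‖(rowOf ξ g 0).2 v‖ ‖(rowOf ξ g 1).2 v‖ := by
  unfold contentFun139
  split_ifs with h
  · exact (max_eq_left h).symm
  · exact (max_eq_right (le_of_lt (not_le.mp h))).symm

theorem contentFun_ne_zero139 (g : G K) (ξ : Fin 2 → K) (hξ : ξ ≠ 0)
    (v : HeightOneSpectrum (𝓞 K)) : contentFun139 g ξ v ≠ 0 := by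
  intro h
  have hn : ‖contentFun139 g ξ v‖ = 0 := by rw [h, norm_zero]
  rw [norm_contentFun139] at hn
  have h0 : ‖(rowOf ξ g 0).2 v‖ ≤ 0 := hn ▸ le_max_left _ _
  have h1 : ‖(rowOf ξ g 1).2 v‖ ≤ 0 := hn ▸ le_max_right _ _
  exact rowOf_ne_zero_at139 g ξ hξ v ⟨norm_le_zero_iff.mp h0, norm_le_zero_iff.mp h1⟩

theorem eventually_norm_contentFun_le139 (g : G K) (ξ : Fin 2 → K) :
    ∀ᶠ v : HeightOneSpectrum (𝓞 K) in cofinite, ‖contentFun139 g ξ v‖ ≤ 1 := by
  filter_upwards [eventually_norm_le_one139 (rowOf ξ g 0).2,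
    eventually_norm_le_one139 (rowOf ξ g 1).2] with v h0 h1
  rw [norm_contentFun139]
  exact max_le h0 h1

theorem eventually_norm_contentFun_ge139 (g : G K) (ξ : Fin 2 → K) (hξ : ξ ≠ 0) :
    ∀ᶠ v : HeightOneSpectrum (𝓞 K) in cofinite, 1 ≤ ‖contentFun139 g ξ v‖ := by
  obtain ⟨j, hj⟩ : ∃ j, ξ j ≠ 0 := by
    by_contra hcon
    exact hξ (funext fun i => by_contra fun hi => hcon ⟨i, hi⟩)
  filter_upwards [eventually_norm_eq_one139 (ξ j) hj,
    eventually_norm_le_one139 (((g⁻¹ : G K) : Matrix (Fin 2) (Fin 2) (Adl K)) 0 j).2,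
    eventually_norm_le_one139 (((g⁻¹ : G K) : Matrix (Fin 2) (Fin 2) (Adl K)) 1 j).2]
    with v h1 hg0 hg1
  rw [norm_contentFun139, ← h1, rowOf_inv_at139 g ξ j v]
  refine (norm_add_le_max139 v _ _).trans (max_le_max ?_ ?_)
  · rw [norm_mul]
    exact mul_le_of_le_one_right (norm_nonneg _) hg0
  · rw [norm_mul]
    exact mul_le_of_le_one_right (norm_nonneg _) hg1

/-- The content adele. -/
def contentAdele139 (g : G K) (ξ : Fin 2 → K) : FiniteAdeleRing (𝓞 K) K :=
  ⟨fun v => contentFun139 g ξ v, by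
    filter_upwards [eventually_norm_contentFun_le139 g ξ] with v hv
    exact (mem_integers_iff_norm139 v _).mpr hv⟩

theorem contentAdele139_apply (g : G K) (ξ : Fin 2 → K) (v : HeightOneSpectrum (𝓞 K)) :
    contentAdele139 g ξ v = contentFun139 g ξ v := rfl

theorem isUnit_contentAdele139 (g : G K) (ξ : Fin 2 → K) (hξ : ξ ≠ 0) :
    IsUnit (contentAdele139 g ξ) := by
  rw [FiniteAdeleRing.isUnit_iff]
  refine ⟨fun v => contentFun_ne_zero139 g ξ hξ v, ?_⟩
  filter_upwards [eventually_norm_contentFun_le139 g ξ,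
    eventually_norm_contentFun_ge139 g ξ hξ] with v h1 h2
  exact (valued_eq_one_iff_norm139 v _).mpr (le_antisymm h1 h2)

variable (K)

/-- **T7.14.3e `ContentC`**: the content idele of a nonzero rational row twisted by `g`. -/
theorem contentC139 : H671.ContentC K := by
  intro g ξ hξ
  refine ⟨(isUnit_contentAdele139 g ξ hξ).unit, fun v => ?_⟩
  rw [IsUnit.unit_spec, contentAdele139_apply, norm_contentFun139]

end Fermat.Agent.LT.T7.H139
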