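import Fermat.Agent.LT.T7.H943.IotaSpec
import Fermat.Agent.LT.T2.H131.WeakApprox

/-!
# Row LT, tower T7, leaf T7.L2.1.C2.4.4 `IotaFixedC943` (helper139, registry #2523)

OFF-MAIN.  Proves `H943.IotaFixedC943 K K'` VERBATIM: the base change of adeles
`ι = iota943 K K'` has its image in the fixed ring of `σ_𝔸`.

Proof.  Component by component.  Finite `w'`: `w = σ⁻¹ w'`, `SigmaLocC305` gives `s_w`; the
places `w`, `w'` lie over the same place `v` of `K` (`σ` fixes `K`); `s_w ∘ i_{v,w}` and
`i_{v,w'}` are continuous and agree on the dense subfield `K`.  Infinite `u`: in both cases of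
`SigmaLocC305` the two sides are continuous ring homomorphisms `K_v → ℂ` which agree on `K`.
-/

set_option autoImplicit false
set_option linter.unusedSectionVars false

open AutomorphicForm IsDedekindDomain NumberField MeasureTheory
open scoped ComplexConjugate

noncomputable section

namespace Fermat.Agent.LT.T7.H139

open Fermat.Agent.LT.H556 Fermat.Agent.LT.H556.A0 Fermat.Agent.LT.T7 Fermat.Agent.LT.T7.H305
open Fermat.Agent.LT.T7.H943 Fermat.Agent.LT.A2.H743

variable {K K' : Type} [Field K] [NumberField K] [Field K'] [NumberField K'] [Algebra K K']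

/-! ## `σ` fixes `K` -/

theorem sigma_fix139 {D : CompData K K'} (hD : IsCompData D) (k : K) :
    D.s.σ (algebraMap K K' k) = algebraMap K K' k :=
  (hD.cyc.fixed _).mp ((hD.base _).mpr ⟨k, rfl⟩)

/-! ## The place `σ⁻¹ w'` -/

/-- The place `σ⁻¹ w'`. -/
def prePlace139 (s : T5.AdelicAut K') (w' : HeightOneSpectrum (𝓞 K')) :
    HeightOneSpectrum (𝓞 K') where
  asIdeal := Ideal.comap (NumberField.RingOfIntegers.mapRingEquiv s.σ) w'.asIdeal
  isPrime := Ideal.comap_isPrime _ _
  ne_bot := by
    intro h
    have h2 : Ideal.map (NumberField.RingOfIntegers.mapRingEquiv s.σ)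
        (Ideal.comap (NumberField.RingOfIntegers.mapRingEquiv s.σ) w'.asIdeal) = w'.asIdeal :=
      Ideal.map_comap_of_surjective _ (NumberField.RingOfIntegers.mapRingEquiv s.σ).surjective _
    rw [h, Ideal.map_bot] at h2
    exact w'.ne_bot h2.symm

theorem placeRel_prePlace139 (s : T5.AdelicAut K') (w' : HeightOneSpectrum (𝓞 K')) :
    T5.PlaceRel s (prePlace139 s w') w' :=
  (Ideal.map_comap_of_surjective _
    (NumberField.RingOfIntegers.mapRingEquiv s.σ).surjective _).symm

theorem finUnder_prePlace139 {D : CompData K K'} (hD : IsCompData D)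
    (w' : HeightOneSpectrum (𝓞 K')) :
    finUnder743 K K' w' = finUnder743 K K' (prePlace139 D.s w') := by
  apply HeightOneSpectrum.ext
  ext x
  show algebraMap (𝓞 K) (𝓞 K') x ∈ w'.asIdeal ↔
    NumberField.RingOfIntegers.mapRingEquiv D.s.σ (algebraMap (𝓞 K) (𝓞 K') x) ∈ w'.asIdeal
  have h : NumberField.RingOfIntegers.mapRingEquiv D.s.σ (algebraMap (𝓞 K) (𝓞 K') x)
      = algebraMap (𝓞 K) (𝓞 K') x := by
    apply NumberField.RingOfIntegers.ext
    rw [NumberField.RingOfIntegers.mapRingEquiv_apply]
    exact sigma_fix139 hD (x : K)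
  rw [h]

/-! ## Continuity of a valuation preserving isomorphism -/

theorem continuous_of_valued139 {F F' : Type} [Field F] [Field F']
    [Valued F (WithZero (Multiplicative ℤ))] [Valued F' (WithZero (Multiplicative ℤ))]
    (f : F ≃+* F') (hv : ∀ x : F, Valued.v (f x) = Valued.v x) : Continuous f := by
  rw [continuous_iff_continuousAt]
  intro x t ht
  obtain ⟨c', hc', hsub⟩ := Fermat.Agent.LT.T2.H131.exists_ball_subset_h131 (f x) ht
  have hc : f.symm c' ≠ 0 := by
    intro h0
    apply hc'
    have := congrArg f h0
    rwa [f.apply_symm_apply, map_zero] at this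
  have hcv : Valued.v (f.symm c') = Valued.v c' := by
    rw [← hv (f.symm c'), f.apply_symm_apply]
  rw [Filter.mem_map]
  refine Filter.mem_of_superset
    (Fermat.Agent.LT.T2.H131.ball_mem_nhds_h131 x (f.symm c') hc) ?_
  intro y hy
  apply hsub
  show Valued.v (f y - f x) < Valued.v c'
  rw [← map_sub, hv, ← hcv]
  exact hy

/-! ## The finite places -/

/-- The local map `K_v → K'_w` for a place `w` over `v`. -/
def locAt139 (w : HeightOneSpectrum (𝓞 K')) (v : HeightOneSpectrum (𝓞 K))
    (h : finUnder743 K K' w = v) : v.adicCompletion K →+* w.adicCompletion K' :=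
  h ▸ finLoc743 K K' w

theorem locAt139_apply (w : HeightOneSpectrum (𝓞 K')) (a : FiniteAdeleRing (𝓞 K) K)
    (v : HeightOneSpectrum (𝓞 K)) (h : finUnder743 K K' w = v) :
    locAt139 w v h (a v) = finLoc743 K K' w (a (finUnder743 K K' w)) := by
  subst h
  rfl

theorem continuous_locAt139 (w : HeightOneSpectrum (𝓞 K')) (v : HeightOneSpectrum (𝓞 K))
    (h : finUnder743 K K' w = v) : Continuous (locAt139 w v h) := by
  subst h
  exact continuous_finLoc743 K K' w

theorem locAt139_coe (w : HeightOneSpectrum (𝓞 K')) (v : HeightOneSpectrum (𝓞 K))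
    (h : finUnder743 K K' w = v) (k : K) :
    locAt139 w v h (algebraMap K (v.adicCompletion K) k)
      = algebraMap K' (w.adicCompletion K') (algebraMap K K' k) := by
  subst h
  exact finLoc_coe743 K K' w k

theorem fin_fixed139 (hσ : SigmaLocC305 K') {D : CompData K K'} (hD : IsCompData D)
    (x : Adl K) (w' : HeightOneSpectrum (𝓞 K')) :
    (D.s.σA (iota943 K K' x)).2 w' = (iota943 K K' x).2 w' := by
  obtain ⟨sw, hsw_coe, hsw_val, hsw⟩ :=
    (hσ D.s).1 (prePlace139 D.s w') w' (placeRel_prePlace139 D.s w')
  have h1 : (D.s.σA (iota943 K K' x)).2 w'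
      = sw ((iota943 K K' x).2 (prePlace139 D.s w')) := hsw (iota943 K K' x)
  rw [h1]
  show sw (finLoc743 K K' (prePlace139 D.s w') (x.2 (finUnder743 K K' (prePlace139 D.s w'))))
    = finLoc743 K K' w' (x.2 (finUnder743 K K' w'))
  have hv : finUnder743 K K' w' = finUnder743 K K' (prePlace139 D.s w') :=
    finUnder_prePlace139 hD w'
  rw [← locAt139_apply w' x.2 (finUnder743 K K' (prePlace139 D.s w')) hv]
  have key : (fun c => sw (finLoc743 K K' (prePlace139 D.s w') c))
      = fun c => locAt139 w' (finUnder743 K K' (prePlace139 D.s w')) hv c := by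
    refine DenseRange.equalizer
      ((finUnder743 K K' (prePlace139 D.s w')).denseRange_algebraMap K)
      ((continuous_of_valued139 sw hsw_val).comp (continuous_finLoc743 K K' _))
      (continuous_locAt139 _ _ _) ?_
    funext k
    show sw (finLoc743 K K' (prePlace139 D.s w')
        (algebraMap K ((finUnder743 K K' (prePlace139 D.s w')).adicCompletion K) k))
      = locAt139 w' _ hv (algebraMap K _ k)
    rw [locAt139_coe]
    have h2 := finLoc_coe743 K K' (prePlace139 D.s w') k
    have h3 := hsw_coe (algebraMap K K' k)
    rw [sigma_fix139 hD] at h3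
    exact (congrArg sw h2).trans h3
  exact congrFun key _

/-! ## The infinite places -/

theorem infHom_algebraMap139 (u : InfinitePlace K') (y : K') :
    T5.infHom u (algebraMap K' (Adl K') y) = u.embedding y :=
  InfinitePlace.Completion.extensionEmbedding_coe u ((WithAbs.equiv u.1).symm y)

theorem denseRange_algebraMap_inf139 (v : InfinitePlace K) :
    DenseRange (algebraMap K v.Completion) := by
  have h := InfinitePlace.Completion.denseRange_coe v
  have h2 : DenseRange ((WithAbs.equiv v.1).symm : K → WithAbs v.1) :=
    (WithAbs.equiv v.1).symm.surjective.denseRange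
  exact h.comp h2 (InfinitePlace.Completion.continuous_coe v)

/-- The map `K_v → ℂ` through the place `u` of `K'` over `v`. -/
def infAt139 (u : InfinitePlace K') (v : InfinitePlace K) (h : infUnder743 K K' u = v) :
    v.Completion →+* ℂ :=
  h ▸ ((InfinitePlace.Completion.extensionEmbedding u).comp (infLoc743 K K' u))

theorem infAt139_apply (u : InfinitePlace K') (a : InfiniteAdeleRing K) (v : InfinitePlace K)
    (h : infUnder743 K K' u = v) :
    infAt139 u v h (a v)
      = InfinitePlace.Completion.extensionEmbedding u
          (infLoc743 K K' u (a (infUnder743 K K' u))) := by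
  subst h
  rfl

theorem continuous_infAt139 (u : InfinitePlace K') (v : InfinitePlace K)
    (h : infUnder743 K K' u = v) : Continuous (infAt139 u v h) := by
  subst h
  exact (InfinitePlace.Completion.isometry_extensionEmbedding u).continuous.comp
    (continuous_infLoc743 K K' u)

theorem infAt139_coe (u : InfinitePlace K') (v : InfinitePlace K)
    (h : infUnder743 K K' u = v) (k : K) :
    infAt139 u v h (algebraMap K v.Completion k) = u.embedding (algebraMap K K' k) := by
  subst h
  show InfinitePlace.Completion.extensionEmbedding u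
    (infLoc743 K K' u (algebraMap K (infUnder743 K K' u).Completion k)) = _
  rw [infLoc_coe743]
  exact InfinitePlace.Completion.extensionEmbedding_coe u
    ((WithAbs.equiv u.1).symm (algebraMap K K' k))

theorem infUnder_comap139 {D : CompData K K'} (hD : IsCompData D) (u : InfinitePlace K') :
    infUnder743 K K' (u.comap (D.s.σ : K' →+* K')) = infUnder743 K K' u := by
  show (u.comap (D.s.σ : K' →+* K')).comap (algebraMap K K') = u.comap (algebraMap K K')
  rw [← InfinitePlace.comap_comp]
  congr 1
  ext k
  exact sigma_fix139 hD k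

theorem infHom_iota139 (u : InfinitePlace K') (v : InfinitePlace K)
    (h : infUnder743 K K' u = v) (x : Adl K) :
    T5.infHom u (iota943 K K' x) = infAt139 u v h (x.1 v) := by
  rw [infAt139_apply]
  rfl

theorem inf_fixed139 (hσ : SigmaLocC305 K') {D : CompData K K'} (hD : IsCompData D)
    (x : Adl K) (u : InfinitePlace K') :
    (D.s.σA (iota943 K K' x)).1 u = (iota943 K K' x).1 u := by
  apply (InfinitePlace.Completion.extensionEmbedding u).injective
  show T5.infHom u (D.s.σA (iota943 K K' x)) = T5.infHom u (iota943 K K' x)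
  have hu := infUnder_comap139 hD u
  rw [infHom_iota139 u (infUnder743 K K' u) rfl x]
  rcases (hσ D.s).2 u with h | h
  · rw [h, infHom_iota139 (u.comap (D.s.σ : K' →+* K')) (infUnder743 K K' u) hu x]
    have key : (fun c => infAt139 (u.comap (D.s.σ : K' →+* K')) (infUnder743 K K' u) hu c)
        = fun c => infAt139 u (infUnder743 K K' u) rfl c := by
      refine DenseRange.equalizer (denseRange_algebraMap_inf139 _)
        (continuous_infAt139 _ _ _) (continuous_infAt139 _ _ _) ?_
      funext k
      show infAt139 _ _ hu (algebraMap K _ k) = infAt139 u _ rfl (algebraMap K _ k)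
      rw [infAt139_coe, infAt139_coe]
      have e := h (algebraMap K' (Adl K') (algebraMap K K' k))
      rw [D.s.compat, infHom_algebraMap139, infHom_algebraMap139, sigma_fix139 hD] at e
      exact e.symm
    exact congrFun key _
  · rw [h, infHom_iota139 (u.comap (D.s.σ : K' →+* K')) (infUnder743 K K' u) hu x]
    have key : (fun c =>
          conj (infAt139 (u.comap (D.s.σ : K' →+* K')) (infUnder743 K K' u) hu c))
        = fun c => infAt139 u (infUnder743 K K' u) rfl c := by
      refine DenseRange.equalizer (denseRange_algebraMap_inf139 _)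
        (Complex.continuous_conj.comp (continuous_infAt139 _ _ _))
        (continuous_infAt139 _ _ _) ?_
      funext k
      show conj (infAt139 _ _ hu (algebraMap K _ k)) = infAt139 u _ rfl (algebraMap K _ k)
      rw [infAt139_coe, infAt139_coe]
      have e := h (algebraMap K' (Adl K') (algebraMap K K' k))
      rw [D.s.compat, infHom_algebraMap139, infHom_algebraMap139, sigma_fix139 hD] at e
      exact e.symm
    exact congrFun key _

/-! ## The leaf -/

variable (K K')

/-- **T7.L2.1.C2.4.4 `IotaFixedC943`**: the image of the base change of adeles is fixed by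
`σ_𝔸`. -/
theorem iotaFixedC139 : IotaFixedC943 K K' := by
  intro hσ D hD _ _ x
  refine Prod.ext ?_ ?_
  · funext u
    exact inf_fixed139 hσ hD x u
  · refine FiniteAdeleRing.ext (R := 𝓞 K') (K := K') fun w' => ?_
    exact fin_fixed139 hσ hD x w'

end Fermat.Agent.LT.T7.H139
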