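import Fermat.Agent.LT.T7.H298.MatchQSpec
import Fermat.Agent.LT.T7.H139.IotaFixed
import Fermat.Agent.LT.T7.H943.IotaFin
import Fermat.Agent.LT.T7.H943.IotaGlue
import Fermat.Agent.LT.T7.H558.SigmaLoc
import Fermat.Agent.LT.T7.H729.IotaInf
import Fermat.Agent.LT.T7.H517.IotaNorm
import Fermat.Agent.LT.T7.H37.IotaEmb
import Fermat.Agent.LT.T7.H816.OntoFin

/-!
# Row LT, tower T7, leaf T7.L2Q.1.H1.2 `IotaQC298 F` (helper139, registry #2602)

OFF-MAIN.  Proves `MQ298.IotaQC298 F` VERBATIM: the base change of adeles `𝔸_ℚ → 𝔸_F` for `F`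
imaginary quadratic.  The map is `iota943 ℚ F = A2.H743.bcAdele743 ℚ F` (helper743).

Fields of `H305.IsAdeleBase305`:
* `cont`, `rat`: helper743 (`continuous_iota943`, `iota943_algebraMap`);
* `fin`: helper943 `iotaFinC943`; `inf`: helper729 `iotaInfC729` (any extension);
* `fixed`: `fin_fixed139`, `inf_fixed139` (helper139 `IotaFixed.lean`, any extension), with the
  asset `sigmaLocC558` (helper558);
* `norm`: helper517 `adNorm_bcAdele517` (any extension: `‖ι x‖ = ‖x‖ ^ [F : ℚ]`);
* `onto`: helper943 `glueC943` with `descFinQ139` (the proof of helper816 `ontoFinC816`, which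
  does not use the hypothesis on the infinite places) and `descInfQ139` (NEW: the real place;
  `σ_𝔸` acts at the complex place of `F` by the conjugation, because `σ ≠ 1`, so the component
  of a fixed adele is real);
* `closed`: helper37 `iotaEmbC37` and the range is the set of the fixed points of `σ_𝔸`.
-/

set_option autoImplicit false
set_option linter.unusedSectionVars false
set_option linter.unusedVariables false

open AutomorphicForm IsDedekindDomain NumberField MeasureTheory
open scoped ComplexConjugate

noncomputable section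

namespace Fermat.Agent.LT.T7.H139

open Fermat.Agent.LT.H556 Fermat.Agent.LT.H556.A0 Fermat.Agent.LT.T7 Fermat.Agent.LT.T7.H305
open Fermat.Agent.LT.T7.H943 Fermat.Agent.LT.A2.H743 Fermat.Agent.LT.T2.H131

section General

variable {K K' : Type} [Field K] [NumberField K] [Field K'] [NumberField K'] [Algebra K K']

/-- The base change of adeles of helper743 is a pre-base change in the sense of helper816
(any extension of number fields). -/
theorem isPreBase_iotaQ139 : H816.IsPreBase816 (iota943 K K') where
  cont := continuous_iota943 K K'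
  rat := iota943_algebraMap K K'
  fin := iotaFinC943 K K'
  inf := IotaInf729.iotaInfC729 K K'

/-- **Local descent at a finite place, any extension** (the proof of helper816 `ontoFinC816`;
no hypothesis on the infinite places). -/
theorem descFinQ139 (hS : SigmaLocC305 K') {D : CompData K K'} (hD : IsCompData D)
    (y : Adl K') (hy : D.s.σA y = y) (v : HeightOneSpectrum (𝓞 K)) :
    ∃ a : Adl K, ∀ w : HeightOneSpectrum (𝓞 K'), PlaceOver K K' v w →
      T5.finHom w (iota943 K K' a) = T5.finHom w y := by
  classical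
  have hι : H816.IsPreBase816 (iota943 K K') := isPreBase_iotaQ139
  by_cases hW : ∃ w₀ : HeightOneSpectrum (𝓞 K'), PlaceOver K K' v w₀
  swap
  · exact ⟨0, fun w hw => absurd ⟨w, hw⟩ hW⟩
  obtain ⟨w₀, hw₀⟩ := hW
  choose e i he hrat hval hfin using
    fun (w : HeightOneSpectrum (𝓞 K')) (hw : PlaceOver K K' v w) => hι.fin v w hw
  have happ : ∀ n : ℕ, ∃ t : K, ∀ (w : HeightOneSpectrum (𝓞 K')) (hw : PlaceOver K K' v w),
      Valued.v (i w hw (algebraMap K (v.adicCompletion K) t)
        - (D.l : w.adicCompletion K') * T5.finHom w y) ≤ WithZero.exp (-(n : ℤ)) := by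
    intro n
    obtain ⟨t, ht⟩ := H816.trace_approx816 hD hS y hy v n
    exact ⟨t, fun w hw => by rw [hrat w hw]; exact ht w hw⟩
  obtain ⟨a, ha⟩ := H816.exists_of_approx816 v (i w₀ hw₀) (e w₀ hw₀) (he w₀ hw₀) (hval w₀ hw₀)
    ((D.l : w₀.adicCompletion K') * T5.finHom w₀ y)
    (fun n => by
      obtain ⟨t, ht⟩ := happ n
      exact ⟨algebraMap K (v.adicCompletion K) t, ht w₀ hw₀⟩)
  have hall : ∀ (w : HeightOneSpectrum (𝓞 K')) (hw : PlaceOver K K' v w),
      i w hw a = (D.l : w.adicCompletion K') * T5.finHom w y := by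
    intro w hw
    by_contra hne
    have hne' : Valued.v (i w hw a - (D.l : w.adicCompletion K') * T5.finHom w y) ≠ 0 := by
      rw [Ne, map_eq_zero, sub_eq_zero]
      exact hne
    obtain ⟨m, hm⟩ := exists_exp_neg_lt_h131 hne'
    obtain ⟨t, ht⟩ := happ (m * e w₀ hw₀)
    have hexp : WithZero.exp (-((m * e w₀ hw₀ : ℕ) : ℤ))
        = WithZero.exp (-(m : ℤ)) ^ (e w₀ hw₀) := by
      rw [← WithZero.exp_nsmul, nsmul_eq_mul]
      congr 1
      push_cast
      ring
    have h0 : Valued.v (a - algebraMap K (v.adicCompletion K) t) ^ (e w₀ hw₀)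
        ≤ WithZero.exp (-(m : ℤ)) ^ (e w₀ hw₀) := by
      rw [← hexp, ← hval w₀ hw₀, map_sub, ha, ← Valuation.map_neg, neg_sub]
      exact ht w₀ hw₀
    have h1 : Valued.v (a - algebraMap K (v.adicCompletion K) t) ≤ WithZero.exp (-(m : ℤ)) := by
      by_contra hlt
      exact absurd h0 (not_le.2 (pow_lt_pow_left₀ (not_le.1 hlt) zero_le (he w₀ hw₀).ne'))
    have h2 : Valued.v (i w hw (a - algebraMap K (v.adicCompletion K) t))
        ≤ WithZero.exp (-(m : ℤ)) := by
      rw [hval w hw]
      exact H816.pow_le_of_le816 h1 (he w hw)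
    have h3 : Valued.v (i w hw (algebraMap K (v.adicCompletion K) t)
        - (D.l : w.adicCompletion K') * T5.finHom w y) ≤ WithZero.exp (-(m : ℤ)) := by
      refine (ht w hw).trans ?_
      rw [WithZero.exp_le_exp]
      have h5 : (1 : ℤ) ≤ (e w₀ hw₀ : ℤ) := by exact_mod_cast he w₀ hw₀
      have h6 : (0 : ℤ) ≤ (m : ℤ) := Int.natCast_nonneg m
      push_cast
      nlinarith
    have hsplit : i w hw a - (D.l : w.adicCompletion K') * T5.finHom w y
        = i w hw (a - algebraMap K (v.adicCompletion K) t)
          + (i w hw (algebraMap K (v.adicCompletion K) t)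
            - (D.l : w.adicCompletion K') * T5.finHom w y) := by
      rw [map_sub]; ring
    have h4 : Valued.v (i w hw a - (D.l : w.adicCompletion K') * T5.finHom w y)
        ≤ WithZero.exp (-(m : ℤ)) := by
      rw [hsplit]
      exact (Valuation.map_add _ _ _).trans (max_le h2 h3)
    exact absurd h4 (not_le.2 hm)
  refine ⟨H816.single816 v (a / (D.l : v.adicCompletion K)), fun w hw => ?_⟩
  rw [hfin w hw, H816.finHom_single816, map_div₀, map_natCast, hall w hw,
    mul_div_cancel_left₀ _ (H816.natCast_ne_zero816 w hD.cyc.pos)]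

/-- The image of the base change of adeles is fixed by `σ_𝔸` (any extension). -/
theorem fixedQ139 (hS : SigmaLocC305 K') {D : CompData K K'} (hD : IsCompData D) (x : Adl K) :
    D.s.σA (iota943 K K' x) = iota943 K K' x := by
  refine Prod.ext ?_ ?_
  · funext u
    exact inf_fixed139 hS hD x u
  · refine FiniteAdeleRing.ext (R := 𝓞 K') (K := K') fun w' => ?_
    exact fin_fixed139 hS hD x w'

/-- The set of the fixed points of `σ_𝔸` is closed. -/
theorem isClosed_fixedQ139 (s : T5.AdelicAut K') : IsClosed {y : Adl K' | s.σA y = y} := by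
  have h1 : T2Space (FiniteAdeleRing (𝓞 K') K') := by
    refine T2Space.of_injective_continuous
      (f := fun (x : FiniteAdeleRing (𝓞 K') K') (v : HeightOneSpectrum (𝓞 K')) => x v) ?_ ?_
    · intro x y h
      exact RestrictedProduct.ext _ _ fun v => congrFun h v
    · exact RestrictedProduct.continuous_coe
  have h2 : T2Space (InfiniteAdeleRing K') :=
    inferInstanceAs (T2Space ((v : InfinitePlace K') → v.Completion))
  have h3 : T2Space (Adl K') :=
    inferInstanceAs (T2Space (InfiniteAdeleRing K' × FiniteAdeleRing (𝓞 K') K'))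
  exact isClosed_eq s.continuous_σA continuous_id

end General

section Quad

variable {F : Type} [Field F] [NumberField F]

/-- At the place of an imaginary quadratic field the component of a `σ_𝔸`-fixed adele is real:
`σ_𝔸` acts by the conjugation (`σ ≠ 1`: the fixed field of `σ` is `ℚ`, and the place is
complex). -/
theorem conj_infHom_fixedQ139 (hq : IsImagQuad F) (hS : SigmaLocC305 F) {D : CompData ℚ F}
    (hD : IsCompData D) (y : Adl F) (hy : D.s.σA y = y) (u : InfinitePlace F) :
    conj (T5.infHom u y) = T5.infHom u y := by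
  obtain ⟨hcard, hcplx⟩ := hq
  have hsub : Subsingleton (InfinitePlace F) := (Nat.card_eq_one_iff_unique.1 hcard).1
  have hu : u.comap (D.s.σ : F →+* F) = u := Subsingleton.elim _ _
  rcases (hS D.s).2 u with h | h
  · exfalso
    have hσ : ∀ x : F, D.s.σ x = x := by
      intro x
      have e := h (algebraMap F (Adl F) x)
      rw [D.s.compat, hu, infHom_algebraMap139, infHom_algebraMap139] at e
      exact u.embedding.injective e
    have hreal : ComplexEmbedding.IsReal u.embedding := by
      rw [ComplexEmbedding.isReal_iff]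
      ext x
      obtain ⟨q, hq⟩ := (hD.base x).1 ((hD.cyc.fixed x).2 (hσ x))
      rw [← hq, ComplexEmbedding.conjugate_coe_eq, eq_ratCast, map_ratCast, map_ratCast]
    exact (InfinitePlace.not_isReal_iff_isComplex.2 (hcplx u)) (InfinitePlace.isReal_iff.2 hreal)
  · have e := h y
    rw [hy, hu] at e
    exact e.symm

/-- **Local descent at the real place of `ℚ`** (NEW with respect to the cubic cut). -/
theorem descInfQ139 (hq : IsImagQuad F) (hS : SigmaLocC305 F) {D : CompData ℚ F}
    (hD : IsCompData D) (y : Adl F) (hy : D.s.σA y = y) (v : InfinitePlace ℚ) :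
    ∃ a : Adl ℚ, ∀ w' : InfinitePlace F, w'.comap (algebraMap ℚ F) = v →
      T5.infHom w' (iota943 ℚ F a) = T5.infHom w' y := by
  classical
  have hsub : Subsingleton (InfinitePlace F) := (Nat.card_eq_one_iff_unique.1 hq.1).1
  have hne : Nonempty (InfinitePlace F) := (Nat.card_eq_one_iff_unique.1 hq.1).2
  obtain ⟨u₀⟩ := hne
  have hv : v.IsReal := by
    rw [Subsingleton.elim v Rat.infinitePlace]
    exact Rat.isReal_infinitePlace
  obtain ⟨c, hc⟩ := InfinitePlace.Completion.surjective_extensionEmbeddingOfIsReal hv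
    (T5.infHom u₀ y).re
  have hc' : InfinitePlace.Completion.extensionEmbedding v c = T5.infHom u₀ y := by
    rw [← InfinitePlace.Completion.extensionEmbeddingOfIsReal_apply hv, hc]
    exact Complex.conj_eq_iff_re.1 (conj_infHom_fixedQ139 hq hS hD y hy u₀)
  have hex : ∃ a : Adl ℚ, T5.infHom v a = T5.infHom u₀ y := by
    refine ⟨((Pi.single v c : (u : InfinitePlace ℚ) → u.Completion),
      (0 : FiniteAdeleRing (𝓞 ℚ) ℚ)), ?_⟩
    show InfinitePlace.Completion.extensionEmbedding v
      ((Pi.single v c : (u : InfinitePlace ℚ) → u.Completion) v) = _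
    rw [Pi.single_eq_same]
    exact hc'
  obtain ⟨a, ha⟩ := hex
  refine ⟨a, ?_⟩
  intro w' hw'
  have hw0 : w' = u₀ := Subsingleton.elim _ _
  subst hw0
  rcases IotaInf729.iotaInfC729 ℚ F w' with h | h
  · rw [h, hw', ha]
  · rw [h, hw', ha]
    exact conj_infHom_fixedQ139 hq hS hD y hy w'

end Quad

/-- **T7.L2Q.1.H1.2 `IotaQC298 F`** (registry #2602): the base change of adeles
`𝔸_ℚ → 𝔸_F` for `F` imaginary quadratic. -/
theorem iotaQC139 (F : Type) [Field F] [NumberField F] : MQ298.IotaQC298 F := by
  intro hq D hD hcyc hl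
  have hS : SigmaLocC305 F := H558.sigmaLocC558
  have hfixed : ∀ x : Adl ℚ, D.s.σA (iota943 ℚ F x) = iota943 ℚ F x :=
    fun x => fixedQ139 hS hD x
  have honto : ∀ y : Adl F, D.s.σA y = y → ∃ x : Adl ℚ, iota943 ℚ F x = y :=
    fun y hy => glueC943 ℚ F y (fun v => descFinQ139 hS hD y hy v)
      (fun v => descInfQ139 hq hS hD y hy v)
  have hrange : Set.range (iota943 ℚ F) = {y : Adl F | D.s.σA y = y} := by
    ext y
    constructor
    · rintro ⟨x, rfl⟩
      exact hfixed x
    · intro hy
      exact honto y hy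
  refine ⟨iota943 ℚ F, ?_⟩
  exact
    { cont := continuous_iota943 ℚ F
      closed := ⟨H37.iotaEmbC37 ℚ F, by rw [hrange]; exact isClosed_fixedQ139 D.s⟩
      rat := iota943_algebraMap ℚ F
      fixed := hfixed
      onto := honto
      norm := fun x => by
        rw [iota943_def, H517.adNorm_bcAdele517 ℚ F x, hcyc.degree]
      fin := iotaFinC943 ℚ F
      inf := IotaInf729.iotaInfC729 ℚ F }

end Fermat.Agent.LT.T7.H139

end
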